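import Mathlib
import Fermat.Agent.H20.DS.Interfaces2
import Fermat.Agent.H22.Main

/-!
# P-DS block (1), row B1-INT: the integral structure of `S_k(Γ₁(N))`   (helper30)

Port of `Fermat.Agent.H22.Main` (Theorems B, C and the integral structure of `S_k(Γ₀(N))`) to
`Γ₁(N)` relative to `Γ₀(N)`:

* `span_rational_Gamma1` (Theorem B): from `ConjGamma1Statement` + `FinDimGamma1Statement`;
* `exists_int_multiple_Gamma1` (Theorem C): from `SepOneStatement`, `RelInterpStatement`,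
  `RelCharpolyStatement`, the bounded-denominators lemma and the landed integral structure of
  `S_k(Γ₀(N))`;
* `intStructGamma1 : ConjGamma1Statement → SepOneStatement → RelInterpStatement →
    RelCharpolyStatement → FinDimGamma1Statement → IntStructGamma1Statement`.
-/

set_option autoImplicit false

open UpperHalfPlane ModularForm CongruenceSubgroup Function
open scoped MatrixGroups ModularForm Manifold

namespace Fermat.Agent.H30.DS

open Fermat.Agent.H20.DS Fermat.Agent.H22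

/-! ### Niceness and the `q`-expansion map on `Γ₁(N)` -/

lemma one_mem_strictPeriods_Gamma1 (N : ℕ) :
    (1 : ℝ) ∈ (Gamma1 N : Subgroup (GL (Fin 2) ℝ)).strictPeriods := by
  rw [strictPeriods_Gamma1]
  exact AddSubgroup.mem_zmultiples 1

lemma nice_Gamma1 {N : ℕ} [NeZero N] {k : ℤ} (f : ModularForm (Gamma1 N) k) : Nice (⇑f) :=
  nice_of_modularForm (one_mem_strictPeriods_Gamma1 N) f

lemma nice_Gamma1_cusp {N : ℕ} [NeZero N] {k : ℤ} (f : CuspForm (Gamma1 N) k) : Nice (⇑f) :=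
  nice_of_cuspForm (one_mem_strictPeriods_Gamma1 N) f

/-- The `q`-expansion as a `ℂ`-linear map on `S_k(Γ₁(N))`. -/
noncomputable def qxLin1 (N : ℕ) [NeZero N] (k : ℤ) :
    CuspForm (Gamma1 N) k →ₗ[ℂ] PowerSeries ℂ where
  toFun f := qExpansion 1 f
  map_add' f g := by
    show qExpansion 1 (⇑(f + g)) = _
    rw [show (⇑(f + g) : ℍ → ℂ) = ⇑f + ⇑g from rfl]
    exact qx_add (nice_Gamma1_cusp f) (nice_Gamma1_cusp g)
  map_smul' c f := by
    show qExpansion 1 (⇑(c • f)) = _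
    rw [show (⇑(c • f) : ℍ → ℂ) = c • ⇑f from rfl]
    exact qx_smul c (nice_Gamma1_cusp f)

@[simp] lemma qxLin1_apply (N : ℕ) [NeZero N] (k : ℤ) (f : CuspForm (Gamma1 N) k) :
    qxLin1 N k f = qExpansion 1 f := rfl

lemma qxLin1_injective (N : ℕ) [NeZero N] (k : ℤ) : Function.Injective (qxLin1 N k) := by
  intro f g h
  have := (nice_Gamma1_cusp f).eq_of_qExpansion_eq (nice_Gamma1_cusp g) h
  exact DFunLike.coe_injective this

/-! ### Cusp forms on `Γ₀(N)` have `q`-expansions in the span of the integral series -/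

lemma int_series_add {p q : PowerSeries ℂ}
    (hp : ∀ n, ∃ m : ℤ, PowerSeries.coeff n p = (m : ℂ))
    (hq : ∀ n, ∃ m : ℤ, PowerSeries.coeff n q = (m : ℂ)) :
    ∀ n, ∃ m : ℤ, PowerSeries.coeff n (p + q) = (m : ℂ) := by
  intro n
  obtain ⟨a, ha⟩ := hp n
  obtain ⟨b, hb⟩ := hq n
  exact ⟨a + b, by simp [ha, hb]⟩

lemma int_series_zsmul {p : PowerSeries ℂ} (c : ℤ)
    (hp : ∀ n, ∃ m : ℤ, PowerSeries.coeff n p = (m : ℂ)) :
    ∀ n, ∃ m : ℤ, PowerSeries.coeff n ((c : ℂ) • p) = (m : ℂ) := by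
  intro n
  obtain ⟨a, ha⟩ := hp n
  exact ⟨c * a, by simp [ha]⟩

/-- Elements of the integral lattice of `S_k(Γ₀(N))` have integral `q`-expansion. -/
lemma intLattice_int (N : ℕ) [NeZero N] (k : ℤ) (f : CuspForm (Gamma0 N) k)
    (hf : f ∈ CuspForm.intLattice N k) :
    ∀ n, ∃ m : ℤ, PowerSeries.coeff n (qExpansion 1 f) = (m : ℂ) := by
  unfold CuspForm.intLattice at hf
  induction hf using Submodule.span_induction with
  | mem x hx => exact hx
  | zero =>
    intro n
    refine ⟨0, ?_⟩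
    have : qExpansion 1 (⇑(0 : CuspForm (Gamma0 N) k)) = 0 := (qxLin N k).map_zero
    rw [this]
    simp
  | add x y _ _ hx hy =>
    have : qExpansion 1 (⇑(x + y)) = qExpansion 1 x + qExpansion 1 y := (qxLin N k).map_add x y
    rw [this]
    exact int_series_add hx hy
  | smul c x _ hx =>
    have h1 : c • x = (c : ℂ) • x := by
      ext z
      simp
    have : qExpansion 1 (⇑(c • x)) = (c : ℂ) • qExpansion 1 x := by
      rw [h1]
      exact (qxLin N k).map_smul (c : ℂ) x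
    rw [this]
    exact int_series_zsmul c hx

/-- Every cusp form on `Γ₀(N)` has its `q`-expansion in the `ℂ`-span of the integral series. -/
lemma gamma0_cusp_mem_spanInt (N : ℕ) [NeZero N] (k : ℤ) (g : CuspForm (Gamma0 N) k) :
    qExpansion 1 g ∈ spanInt := by
  have h := hasIntegralStructure N k
  unfold CuspForm.HasIntegralStructure at h
  have hg : g ∈ Submodule.span ℂ
      ((CuspForm.intLattice N k : Submodule ℤ (CuspForm (Gamma0 N) k)) :
        Set (CuspForm (Gamma0 N) k)) := by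
    rw [h]
    exact Submodule.mem_top
  induction hg using Submodule.span_induction with
  | mem x hx => exact mem_spanInt_of_int (intLattice_int N k x hx)
  | zero =>
    have : qExpansion 1 (⇑(0 : CuspForm (Gamma0 N) k)) = 0 := (qxLin N k).map_zero
    rw [this]
    exact Submodule.zero_mem _
  | add x y _ _ hx hy =>
    have : qExpansion 1 (⇑(x + y)) = qExpansion 1 x + qExpansion 1 y := (qxLin N k).map_add x y
    rw [this]
    exact Submodule.add_mem _ hx hy
  | smul c x _ hx =>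
    have : qExpansion 1 (⇑(c • x)) = c • qExpansion 1 x := (qxLin N k).map_smul c x
    rw [this]
    exact Submodule.smul_mem _ c hx

/-! ### Theorem B for `Γ₁(N)` -/

/-- **Theorem B for `Γ₁(N)`.** `S_k(Γ₁(N))` is spanned by the forms with rational
`q`-expansion. -/
theorem span_rational_Gamma1 (hConj : ConjGamma1Statement) (hFin : FinDimGamma1Statement)
    (N : ℕ) [NeZero N] (hN : 3 ≤ N) (k : ℤ) :
    Submodule.span ℂ {f : CuspForm (Gamma1 N) k |
      ∀ n, ∃ r : ℚ, PowerSeries.coeff n (qExpansion 1 f) = (r : ℂ)} = ⊤ := by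
  have := hFin N k
  have hV : ∀ σ : ℂ →+* ℂ, ∀ v ∈ LinearMap.range (qxLin1 N k),
      PowerSeries.map σ v ∈ LinearMap.range (qxLin1 N k) := by
    rintro σ _ ⟨f, rfl⟩
    obtain ⟨g, hg⟩ := hConj N hN k σ f
    exact ⟨g, hg⟩
  have h := span_rat_of_stable (LinearMap.range (qxLin1 N k)) hV
  rw [eq_top_iff]
  intro f _
  have hf : qxLin1 N k f ∈ LinearMap.range (qxLin1 N k) := ⟨f, rfl⟩
  have h2 := h hf
  have hset : {v | v ∈ LinearMap.range (qxLin1 N k) ∧
      ∀ n, ∃ r : ℚ, PowerSeries.coeff n v = (r : ℂ)} =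
      qxLin1 N k '' {f | ∀ n, ∃ r : ℚ, PowerSeries.coeff n (qExpansion 1 f) = (r : ℂ)} := by
    ext v
    constructor
    · rintro ⟨⟨g, rfl⟩, hr⟩
      exact ⟨g, hr, rfl⟩
    · rintro ⟨g, hr, rfl⟩
      exact ⟨⟨g, rfl⟩, hr⟩
  rw [hset, ← Submodule.map_span] at h2
  obtain ⟨f', hf', hff'⟩ := h2
  rwa [← qxLin1_injective N k hff']

/-! ### Theorem C for `Γ₁(N)` -/

/-- **Theorem C for `Γ₁(N)`.** A cusp form on `Γ₁(N)` with rational `q`-expansion has bounded
denominators. -/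
theorem exists_int_multiple_Gamma1 (hSep : SepOneStatement) (hInterp : RelInterpStatement)
    (hChar : RelCharpolyStatement)
    (N : ℕ) [NeZero N] (hN : 3 ≤ N) (k : ℤ) (f : CuspForm (Gamma1 N) k)
    (hf : ∀ n, ∃ r : ℚ, PowerSeries.coeff n (qExpansion 1 f) = (r : ℂ)) :
    ∃ D : ℕ, D ≠ 0 ∧ ∀ n, ∃ m : ℤ, (D : ℂ) * PowerSeries.coeff n (qExpansion 1 f) = (m : ℂ) := by
  classical
  obtain ⟨t, ht_int, ht_sep⟩ := hSep N hN
  obtain ⟨μ, D, hμ, hD0, hint⟩ := hInterp N 1 t ht_sep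
  obtain ⟨ℓf, hℓf, hfD⟩ := hint k (ModularFormClass.modularForm f)
  obtain ⟨ℓ1, hℓ1, h1D⟩ := hint 0 (1 : ModularForm (Gamma1 N) 0)
  obtain ⟨ν, c, hν, hc, hcf⟩ := hChar N k f
  have hfD' : (⇑f : ℍ → ℂ) * D = ∑ m ∈ Finset.range μ, ℓf m * (⇑t) ^ m := hfD
  have h1D' : D = ∑ m ∈ Finset.range μ, ℓ1 m * (⇑t) ^ m := by
    rw [← h1D, one_coe_eq_one, one_mul]
  have hnt : Nice (⇑t) := nice_Gamma1 t
  have hnf : Nice (⇑f) := nice_Gamma1_cusp f
  have hnℓ1 : ∀ m < μ, Nice (ℓ1 m) := fun m hm => by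
    obtain ⟨g, hg⟩ := hℓ1 m hm; rw [← hg]; exact nice_Gamma0_cusp g
  have hnc : ∀ i < ν, Nice (c i) := fun i hi => by
    obtain ⟨g, hg⟩ := hc i hi; rw [← hg]; exact nice_Gamma0_cusp g
  have hnD : Nice D := by
    rw [h1D']
    exact Nice.sum _ _ fun m hm => (hnℓ1 m (Finset.mem_range.1 hm)).mul (hnt.pow m)
  have hqt : qExpansion 1 (⇑t) ∈ spanInt := mem_spanInt_of_int ht_int
  -- membership in the span of integral series
  have hsum : ∀ (ℓ : ℕ → ℍ → ℂ) (κ : ℤ),
      (∀ m < μ, ∃ g : CuspForm (Gamma0 N) (κ + 12 + 1 * ((μ : ℤ) - 1 - (m : ℤ))), ⇑g = ℓ m) →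
      qExpansion 1 (∑ m ∈ Finset.range μ, ℓ m * (⇑t) ^ m) ∈ spanInt := by
    intro ℓ κ hℓ
    have hn : ∀ m < μ, Nice (ℓ m) := fun m hm => by
      obtain ⟨g, hg⟩ := hℓ m hm; rw [← hg]; exact nice_Gamma0_cusp g
    rw [qx_sum _ _ fun m hm => (hn m (Finset.mem_range.1 hm)).mul (hnt.pow m)]
    refine Submodule.sum_mem _ fun m hm => ?_
    have hm' := Finset.mem_range.1 hm
    rw [qx_mul (hn m hm') (hnt.pow m), qx_pow hnt]
    refine mul_mem_spanInt ?_ (pow_mem_spanInt hqt m)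
    obtain ⟨g, hg⟩ := hℓ m hm'
    rw [← hg]
    exact gamma0_cusp_mem_spanInt N _ g
  have hd : qExpansion 1 D ∈ spanInt := by
    rw [h1D']
    exact hsum ℓ1 0 hℓ1
  have hq : qExpansion 1 ((⇑f : ℍ → ℂ) * D) ∈ spanInt := by
    rw [hfD']
    exact hsum ℓf k hℓf
  have hqD0 : qExpansion 1 D ≠ 0 := fun h => hD0 (hnD.eq_zero_of_qExpansion_eq_zero h)
  have hc' : ∀ i, (if i < ν then qExpansion 1 (c i) else 0) ∈ spanInt := by
    intro i
    split_ifs with hi
    · obtain ⟨g, hg⟩ := hc i hi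
      rw [← hg]
      exact gamma0_cusp_mem_spanInt N _ g
    · exact Submodule.zero_mem _
  have h2 : qExpansion 1 (⇑f) ^ ν +
      ∑ i ∈ Finset.range ν, (if i < ν then qExpansion 1 (c i) else 0) * qExpansion 1 (⇑f) ^ i
        = 0 := by
    have := congrArg (qExpansion 1) hcf
    rw [qx_add (hnf.pow ν) (Nice.sum _ _ fun i hi =>
        (hnc i (Finset.mem_range.1 hi)).mul (hnf.pow i)),
      qx_pow hnf, qx_sum _ _ fun i hi => (hnc i (Finset.mem_range.1 hi)).mul (hnf.pow i),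
      qExpansion_zero] at this
    rw [← this]
    congr 1
    refine Finset.sum_congr rfl fun i hi => ?_
    rw [if_pos (Finset.mem_range.1 hi), qx_mul (hnc i (Finset.mem_range.1 hi)) (hnf.pow i),
      qx_pow hnf]
  exact bounded_denominators (qExpansion 1 (⇑f)) (qExpansion 1 D)
    (qExpansion 1 ((⇑f : ℍ → ℂ) * D)) hf hd hq hqD0 (qx_mul hnf hnD).symm ν _ hc' h2

/-! ### The integral structure -/

/-- **B1-INT.** The integral structure of `S_k(Γ₁(N))`, `N ≥ 3`, from Theorem A for `Γ₁(N)`, the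
separating weight-one form, the relative interpolation, the relative characteristic polynomial
and finite-dimensionality. -/
theorem intStructGamma1 (hConj : ConjGamma1Statement) (hSep : SepOneStatement)
    (hInterp : RelInterpStatement) (hChar : RelCharpolyStatement)
    (hFin : FinDimGamma1Statement) : IntStructGamma1Statement := by
  classical
  intro N _ hN k
  have hfd : FiniteDimensional ℂ (CuspForm (Gamma1 N) k) := hFin N k
  have hS := span_rational_Gamma1 hConj hFin N hN k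
  obtain ⟨B, hBS, hBspan, hBli⟩ := exists_linearIndependent ℂ
    {f : CuspForm (Gamma1 N) k | ∀ n, ∃ r : ℚ, PowerSeries.coeff n (qExpansion 1 f) = (r : ℂ)}
  rw [hS] at hBspan
  have hBfin : B.Finite := hBli.setFinite
  -- bounded denominators for the elements of `B`
  have hden : ∀ f : CuspForm (Gamma1 N) k, ∃ D : ℕ, f ∈ B →
      (D ≠ 0 ∧ ∀ n, ∃ m : ℤ, (D : ℂ) * PowerSeries.coeff n (qExpansion 1 f) = (m : ℂ)) := by
    intro f
    by_cases hf : f ∈ B
    · obtain ⟨D, hD0, hD⟩ := exists_int_multiple_Gamma1 hSep hInterp hChar N hN k f (hBS hf)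
      exact ⟨D, fun _ => ⟨hD0, hD⟩⟩
    · exact ⟨0, fun h => absurd h hf⟩
  choose den hden using hden
  have hBf : Finite ↥B := hBfin.to_subtype
  let e : ↥B ≃ Fin (Nat.card ↥B) := Finite.equivFin ↥B
  refine ⟨Nat.card ↥B, fun i => (den (e.symm i).1 : ℂ) • (e.symm i).1, ?_, ?_⟩
  · intro i n
    obtain ⟨-, hD⟩ := hden (e.symm i).1 (e.symm i).2
    obtain ⟨m, hm⟩ := hD n
    refine ⟨m, ?_⟩
    rw [← hm]
    have h1 : qExpansion 1 (⇑((den (e.symm i).1 : ℂ) • (e.symm i).1)) =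
        (den (e.symm i).1 : ℂ) • qExpansion 1 (⇑(e.symm i).1) :=
      (qxLin1 N k).map_smul _ _
    rw [h1]
    simp
  · rw [eq_top_iff, ← hBspan, Submodule.span_le]
    intro f hf
    obtain ⟨hD0, -⟩ := hden f hf
    have hD0' : (den f : ℂ) ≠ 0 := by exact_mod_cast hD0
    have hmem : (den f : ℂ) • f ∈ Set.range
        (fun i => (den (e.symm i).1 : ℂ) • ((e.symm i).1 : CuspForm (Gamma1 N) k)) := by
      refine ⟨e ⟨f, hf⟩, ?_⟩
      show (den (e.symm (e ⟨f, hf⟩)).1 : ℂ) • ((e.symm (e ⟨f, hf⟩)).1 : CuspForm (Gamma1 N) k) = _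
      rw [Equiv.symm_apply_apply]
    have hfe : f = (den f : ℂ)⁻¹ • ((den f : ℂ) • f) := by
      rw [smul_smul, inv_mul_cancel₀ hD0', one_smul]
    rw [SetLike.mem_coe, hfe]
    exact Submodule.smul_mem _ _ (Submodule.subset_span hmem)

end Fermat.Agent.H30.DS
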