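import Fermat.Agent.H6.DS.Interfaces

/-!
# P-DS, block (2C): holomorphy of Hecke's weight-one Eisenstein function   (helper30)

`eisOne ℓ a z = ζ(u_a; ℤ z + ℤ) - (a 0 / ℓ) η(z) - (a 1 / ℓ) η(1)` with `u_a = (a 0 z + a 1) / ℓ`.
All three zeta values are of the shape `wzeta z (latPt z b / m)` with `b` nonzero modulo `m`
(`(b, m) = (a, ℓ)`, `(![1, 0], 2)`, `(![0, 1], 2)`), and for such a value the `v`-th summand is
`u ^ 2 / (w ^ 2 (u - w))` with `w = latPt z v` and `u - w = latPt z (b - m v) / m`, a quotient of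
*integral* lattice points.  Mathlib's lower bound `r z * ‖x‖ ≤ ‖x 0 z + x 1‖` on vertical strips
then gives a summable bound `C (‖v‖⁻³ + ‖b - m v‖⁻³)` uniform on small balls, and
`differentiableOn_tsum_of_summable_norm` finishes.

Main result: `Fermat.Agent.H30.DS.eisOneHolomorphic : EisOneHolomorphicStatement`.
-/

set_option autoImplicit false

open UpperHalfPlane

namespace Fermat.Agent.H30.DS

open Fermat.Agent.H6.DS

/-- The algebraic identity behind the convergence of the zeta sum. -/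
lemma zetaTerm_identity {u w : ℂ} (hw : w ≠ 0) (huw : u - w ≠ 0) :
    1 / (u - w) + 1 / w + u / w ^ 2 = u ^ 2 / (w ^ 2 * (u - w)) := by
  field_simp
  ring

lemma latPt_div_sub (z : ℂ) (a v : Fin 2 → ℤ) {ℓ : ℕ} (hℓ : ℓ ≠ 0) :
    latPt z a / ℓ - latPt z v = latPt z (a - (ℓ : ℤ) • v) / ℓ := by
  have hℓ' : (ℓ : ℂ) ≠ 0 := Nat.cast_ne_zero.mpr hℓ
  simp only [latPt, Pi.sub_apply, Pi.smul_apply, smul_eq_mul, Int.cast_sub, Int.cast_mul,
    Int.cast_natCast]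
  field_simp
  ring

lemma sub_smul_ne_zero_of_nonzeroMod {ℓ : ℕ} {a : Fin 2 → ℤ} (ha : NonzeroMod ℓ a)
    (v : Fin 2 → ℤ) : a - (ℓ : ℤ) • v ≠ 0 := by
  intro h
  apply ha
  have h0 := congrFun h 0
  have h1 := congrFun h 1
  simp only [Pi.sub_apply, Pi.smul_apply, smul_eq_mul, Pi.zero_apply] at h0 h1
  exact ⟨⟨v 0, by linarith⟩, ⟨v 1, by linarith⟩⟩

lemma ne_zero_of_nonzeroMod {ℓ : ℕ} {a : Fin 2 → ℤ} (ha : NonzeroMod ℓ a) : a ≠ 0 := by
  simpa using sub_smul_ne_zero_of_nonzeroMod ha 0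

lemma differentiable_latPt (v : Fin 2 → ℤ) : Differentiable ℂ (fun z : ℂ => latPt z v) := by
  unfold latPt
  fun_prop

/-- A nonzero integral vector has sup norm at least one. -/
lemma one_le_norm_of_ne_zero {x : Fin 2 → ℤ} (hx : x ≠ 0) : (1 : ℝ) ≤ ‖x‖ := by
  rw [EisensteinSeries.norm_eq_max_natAbs]
  have h : 0 < max (x 0).natAbs (x 1).natAbs := by
    by_contra hcon
    have h0 : max (x 0).natAbs (x 1).natAbs = 0 := by omega
    have h1 : (x 0).natAbs = 0 := by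
      have := le_max_left (x 0).natAbs (x 1).natAbs
      omega
    have h2 : (x 1).natAbs = 0 := by
      have := le_max_right (x 0).natAbs (x 1).natAbs
      omega
    apply hx
    funext i
    fin_cases i
    · simpa using h1
    · simpa using h2
  exact_mod_cast h

/-- `1 / (x² y) ≤ 1 / x³ + 1 / y³` for positive reals. -/
lemma inv_sq_mul_le {x y : ℝ} (hx : 0 < x) (hy : 0 < y) :
    (x ^ 2 * y)⁻¹ ≤ (x ^ 3)⁻¹ + (y ^ 3)⁻¹ := by
  rcases le_total x y with h | h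
  · have h1 : (x ^ 2 * y)⁻¹ ≤ (x ^ 3)⁻¹ := by
      apply inv_anti₀ (by positivity)
      have : x ^ 3 = x ^ 2 * x := by ring
      rw [this]
      gcongr
    have h2 : (0 : ℝ) ≤ (y ^ 3)⁻¹ := by positivity
    linarith
  · have h1 : (x ^ 2 * y)⁻¹ ≤ (y ^ 3)⁻¹ := by
      apply inv_anti₀ (by positivity)
      have : y ^ 3 = y ^ 2 * y := by ring
      rw [this]
      gcongr
    have h2 : (0 : ℝ) ≤ (x ^ 3)⁻¹ := by positivity
    linarith

lemma summable_inv_norm_cube : Summable fun x : Fin 2 → ℤ => ((‖x‖ : ℝ) ^ 3)⁻¹ := by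
  have h := EisensteinSeries.summable_one_div_norm_rpow (k := 3) (by norm_num)
  refine h.congr fun x => ?_
  rw [Real.rpow_neg (norm_nonneg _)]
  norm_cast

lemma injective_sub_smul {ℓ : ℕ} (hℓ : ℓ ≠ 0) (a : Fin 2 → ℤ) :
    Function.Injective fun v : Fin 2 → ℤ => a - (ℓ : ℤ) • v := by
  intro v w h
  have hℓ' : (ℓ : ℤ) ≠ 0 := Int.natCast_ne_zero.mpr hℓ
  funext i
  have hi := congrFun h i
  simp only [Pi.sub_apply, Pi.smul_apply, smul_eq_mul] at hi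
  have : (ℓ : ℤ) * v i = (ℓ : ℤ) * w i := by linarith
  exact mul_left_cancel₀ hℓ' this

/-- The lower bound for integral lattice points, uniform on a ball inside the upper half plane. -/
lemma exists_lower_bound_on_ball {z₀ : ℂ} (hz₀ : 0 < z₀.im) :
    ∃ r₀ : ℝ, 0 < r₀ ∧ ∀ z ∈ Metric.ball z₀ (z₀.im / 2), 0 < z.im ∧
      ∀ x : Fin 2 → ℤ, x ≠ 0 → r₀ * ‖x‖ ≤ ‖latPt z x‖ := by
  set B : ℝ := z₀.im / 2 with hB
  have hBpos : 0 < B := by positivity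
  set A : ℝ := |z₀.re| + B with hA
  refine ⟨EisensteinSeries.r ⟨⟨A, B⟩, hBpos⟩, EisensteinSeries.r_pos _, fun z hz => ?_⟩
  have hdist : ‖z - z₀‖ < B := by simpa [dist_eq_norm] using hz
  have him : |(z - z₀).im| ≤ ‖z - z₀‖ := Complex.abs_im_le_norm _
  have hre : |(z - z₀).re| ≤ ‖z - z₀‖ := Complex.abs_re_le_norm _
  have him' : B < z.im := by
    have h1 := (abs_le.mp him).1
    simp only [Complex.sub_im] at h1
    have : z₀.im = 2 * B := by rw [hB]; ring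
    linarith
  have hre' : |z.re| ≤ A := by
    have h1 : z.re = z₀.re + (z - z₀).re := by simp
    rw [h1]
    calc |z₀.re + (z - z₀).re| ≤ |z₀.re| + |(z - z₀).re| := abs_add_le _ _
      _ ≤ |z₀.re| + B := by linarith
  have hzpos : 0 < z.im := hBpos.trans him'
  refine ⟨hzpos, fun x hx => ?_⟩
  have hmem : (⟨z, hzpos⟩ : ℍ) ∈ verticalStrip A B := ⟨hre', him'.le⟩
  have h1 := EisensteinSeries.r_lower_bound_on_verticalStrip (⟨z, hzpos⟩ : ℍ) hBpos hmem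
  have h2 := EisensteinSeries.r_mul_max_le (⟨z, hzpos⟩ : ℍ) hx
  calc EisensteinSeries.r ⟨⟨A, B⟩, hBpos⟩ * ‖x‖
      ≤ EisensteinSeries.r (⟨z, hzpos⟩ : ℍ) * ‖x‖ := by gcongr
    _ ≤ ‖latPt z x‖ := h2

/-- The `v`-th summand of `wzeta z (latPt z a / ℓ)` is holomorphic in `z` on the upper half
plane. -/
lemma differentiableAt_zetaTerm_latPt {ℓ : ℕ} (hℓ : ℓ ≠ 0) {a : Fin 2 → ℤ} (ha : NonzeroMod ℓ a)
    (v : Fin 2 → ℤ) {z : ℂ} (hne : ∀ x : Fin 2 → ℤ, x ≠ 0 → latPt z x ≠ 0) :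
    DifferentiableAt ℂ (fun z : ℂ => zetaTerm z (latPt z a / ℓ) v) z := by
  have hℓ' : (ℓ : ℂ) ≠ 0 := Nat.cast_ne_zero.mpr hℓ
  have hu : DifferentiableAt ℂ (fun z : ℂ => latPt z a / (ℓ : ℂ)) z :=
    ((differentiable_latPt a).differentiableAt).div_const _
  by_cases hv : v = 0
  · have hfun : (fun z : ℂ => zetaTerm z (latPt z a / ℓ) v) = fun z : ℂ => 1 / (latPt z a / ℓ) := by
      funext z
      simp [zetaTerm, hv]
    rw [hfun]
    refine (differentiableAt_const _).div hu ?_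
    exact div_ne_zero (hne a (ne_zero_of_nonzeroMod ha)) hℓ'
  · have hfun : (fun z : ℂ => zetaTerm z (latPt z a / ℓ) v) = fun z : ℂ =>
        1 / (latPt z a / ℓ - latPt z v) + 1 / latPt z v + (latPt z a / ℓ) / latPt z v ^ 2 := by
      funext z
      simp [zetaTerm, hv]
    rw [hfun]
    have hw : DifferentiableAt ℂ (fun z : ℂ => latPt z v) z :=
      (differentiable_latPt v).differentiableAt
    have hw0 : latPt z v ≠ 0 := hne v hv
    have huw0 : latPt z a / ℓ - latPt z v ≠ 0 := by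
      rw [latPt_div_sub z a v hℓ]
      exact div_ne_zero (hne _ (sub_smul_ne_zero_of_nonzeroMod ha v)) hℓ'
    refine DifferentiableAt.add (DifferentiableAt.add ?_ ?_) ?_
    · exact (differentiableAt_const _).div (hu.sub hw) huw0
    · exact (differentiableAt_const _).div hw hw0
    · exact hu.div (hw.pow 2) (pow_ne_zero 2 hw0)

/-- The norm bound for the `v`-th summand of `wzeta z (latPt z a / ℓ)`. -/
lemma norm_zetaTerm_latPt_le {ℓ : ℕ} (hℓ : ℓ ≠ 0) {a : Fin 2 → ℤ} (ha : NonzeroMod ℓ a)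
    (v : Fin 2 → ℤ) {z : ℂ} {r₀ M : ℝ} (hr₀ : 0 < r₀)
    (hlow : ∀ x : Fin 2 → ℤ, x ≠ 0 → r₀ * ‖x‖ ≤ ‖latPt z x‖) (hM : ‖latPt z a‖ ≤ M) :
    ‖zetaTerm z (latPt z a / ℓ) v‖ ≤
      (if v = 0 then (ℓ : ℝ) / r₀ else 0) +
        M ^ 2 / (ℓ * r₀ ^ 3) * ((‖v‖ ^ 3)⁻¹ + (‖a - (ℓ : ℤ) • v‖ ^ 3)⁻¹) := by
  have hℓ' : (ℓ : ℂ) ≠ 0 := Nat.cast_ne_zero.mpr hℓ
  have hℓpos : (0 : ℝ) < ℓ := Nat.cast_pos.mpr (Nat.pos_of_ne_zero hℓ)
  have hM0 : 0 ≤ M := (norm_nonneg _).trans hM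
  have hne : ∀ x : Fin 2 → ℤ, x ≠ 0 → latPt z x ≠ 0 := by
    intro x hx h0
    have h1 := hlow x hx
    rw [h0, norm_zero] at h1
    have h2 : 0 < r₀ * ‖x‖ := mul_pos hr₀ (lt_of_lt_of_le one_pos (one_le_norm_of_ne_zero hx))
    linarith
  have hrest : 0 ≤ M ^ 2 / (ℓ * r₀ ^ 3) * ((‖v‖ ^ 3)⁻¹ + (‖a - (ℓ : ℤ) • v‖ ^ 3)⁻¹) := by
    positivity
  by_cases hv : v = 0
  · have ha0 : a ≠ 0 := ne_zero_of_nonzeroMod ha
    have h1 : zetaTerm z (latPt z a / ℓ) v = (ℓ : ℂ) / latPt z a := by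
      simp [zetaTerm, hv]
    have h2 : r₀ ≤ ‖latPt z a‖ := by
      have := hlow a ha0
      have h3 : r₀ * 1 ≤ r₀ * ‖a‖ := by
        gcongr
        exact one_le_norm_of_ne_zero ha0
      linarith
    rw [h1, if_pos hv, norm_div, Complex.norm_natCast]
    have h4 : (ℓ : ℝ) / ‖latPt z a‖ ≤ ℓ / r₀ := by gcongr
    linarith
  · have hw0 : latPt z v ≠ 0 := hne v hv
    have hx0 : a - (ℓ : ℤ) • v ≠ 0 := sub_smul_ne_zero_of_nonzeroMod ha v
    have huw : latPt z a / ℓ - latPt z v = latPt z (a - (ℓ : ℤ) • v) / ℓ :=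
      latPt_div_sub z a v hℓ
    have huw0 : latPt z a / ℓ - latPt z v ≠ 0 := by
      rw [huw]
      exact div_ne_zero (hne _ hx0) hℓ'
    have h1 : zetaTerm z (latPt z a / ℓ) v =
        (latPt z a / ℓ) ^ 2 / (latPt z v ^ 2 * (latPt z a / ℓ - latPt z v)) := by
      rw [← zetaTerm_identity hw0 huw0]
      simp [zetaTerm, hv]
    have hnv : (1 : ℝ) ≤ ‖v‖ := one_le_norm_of_ne_zero hv
    have hnx : (1 : ℝ) ≤ ‖a - (ℓ : ℤ) • v‖ := one_le_norm_of_ne_zero hx0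
    have hnv0 : (0 : ℝ) < ‖v‖ := lt_of_lt_of_le one_pos hnv
    have hnx0 : (0 : ℝ) < ‖a - (ℓ : ℤ) • v‖ := lt_of_lt_of_le one_pos hnx
    have hlv := hlow v hv
    have hlx := hlow _ hx0
    have hnorm : ‖zetaTerm z (latPt z a / ℓ) v‖ =
        ‖latPt z a‖ ^ 2 / (ℓ * (‖latPt z v‖ ^ 2 * ‖latPt z (a - (ℓ : ℤ) • v)‖)) := by
      rw [h1, huw]
      simp only [norm_div, norm_mul, norm_pow, Complex.norm_natCast]
      field_simp
    have hden : (ℓ : ℝ) * ((r₀ * ‖v‖) ^ 2 * (r₀ * ‖a - (ℓ : ℤ) • v‖)) ≤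
        ℓ * (‖latPt z v‖ ^ 2 * ‖latPt z (a - (ℓ : ℤ) • v)‖) := by
      gcongr
    have hstep1 : ‖zetaTerm z (latPt z a / ℓ) v‖ ≤
        M ^ 2 / (ℓ * ((r₀ * ‖v‖) ^ 2 * (r₀ * ‖a - (ℓ : ℤ) • v‖))) := by
      rw [hnorm]
      gcongr
    have hstep2 : M ^ 2 / (ℓ * ((r₀ * ‖v‖) ^ 2 * (r₀ * ‖a - (ℓ : ℤ) • v‖))) =
        M ^ 2 / (ℓ * r₀ ^ 3) * (‖v‖ ^ 2 * ‖a - (ℓ : ℤ) • v‖)⁻¹ := by
      field_simp
    have hstep3 : M ^ 2 / (ℓ * r₀ ^ 3) * (‖v‖ ^ 2 * ‖a - (ℓ : ℤ) • v‖)⁻¹ ≤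
        M ^ 2 / (ℓ * r₀ ^ 3) * ((‖v‖ ^ 3)⁻¹ + (‖a - (ℓ : ℤ) • v‖ ^ 3)⁻¹) := by
      gcongr
      exact inv_sq_mul_le hnv0 hnx0
    rw [if_neg hv, zero_add]
    calc ‖zetaTerm z (latPt z a / ℓ) v‖
        ≤ M ^ 2 / (ℓ * ((r₀ * ‖v‖) ^ 2 * (r₀ * ‖a - (ℓ : ℤ) • v‖))) := hstep1
      _ = M ^ 2 / (ℓ * r₀ ^ 3) * (‖v‖ ^ 2 * ‖a - (ℓ : ℤ) • v‖)⁻¹ := hstep2
      _ ≤ _ := hstep3

/-- Summability of the bound. -/
lemma summable_zetaTerm_bound {ℓ : ℕ} (hℓ : ℓ ≠ 0) (a : Fin 2 → ℤ) (c C : ℝ) :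
    Summable fun v : Fin 2 → ℤ =>
      (if v = 0 then c else 0) + C * ((‖v‖ ^ 3)⁻¹ + (‖a - (ℓ : ℤ) • v‖ ^ 3)⁻¹) := by
  have h1 : Summable fun v : Fin 2 → ℤ => (if v = 0 then c else 0) := by
    refine summable_of_hasFiniteSupport (show Set.Finite _ from ?_)
    refine (Set.finite_singleton (0 : Fin 2 → ℤ)).subset ?_
    intro v hv
    by_contra h
    simp only [Set.mem_singleton_iff] at h
    simp [Function.mem_support, h] at hv
  have h2 : Summable fun v : Fin 2 → ℤ => ((‖a - (ℓ : ℤ) • v‖ : ℝ) ^ 3)⁻¹ :=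
    summable_inv_norm_cube.comp_injective (injective_sub_smul hℓ a)
  exact h1.add ((summable_inv_norm_cube.add h2).mul_left C)

/-- The key holomorphy statement: `z ↦ ζ((a 0 z + a 1) / ℓ; ℤ z + ℤ)` is holomorphic on the upper
half plane whenever `a` is nonzero modulo `ℓ`. -/
theorem differentiableOn_wzeta_latPt {ℓ : ℕ} (hℓ : ℓ ≠ 0) {a : Fin 2 → ℤ} (ha : NonzeroMod ℓ a) :
    DifferentiableOn ℂ (fun z : ℂ => wzeta z (latPt z a / ℓ)) {z : ℂ | 0 < z.im} := by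
  intro z₀ hz₀
  have hz₀' : 0 < z₀.im := hz₀
  obtain ⟨r₀, hr₀, hball⟩ := exists_lower_bound_on_ball hz₀'
  set U : Set ℂ := Metric.ball z₀ (z₀.im / 2) with hU
  have hUopen : IsOpen U := Metric.isOpen_ball
  have hz₀U : z₀ ∈ U := Metric.mem_ball_self (by positivity)
  set M : ℝ := |(a 0 : ℝ)| * (‖z₀‖ + z₀.im / 2) + |(a 1 : ℝ)| with hMdef
  have hMbound : ∀ z ∈ U, ‖latPt z a‖ ≤ M := by
    intro z hz
    have hdist : ‖z - z₀‖ < z₀.im / 2 := by simpa [hU, dist_eq_norm] using hz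
    have hz1 : ‖z‖ ≤ ‖z₀‖ + z₀.im / 2 := by
      have h1 : z = z₀ + (z - z₀) := by ring
      calc ‖z‖ = ‖z₀ + (z - z₀)‖ := by rw [← h1]
        _ ≤ ‖z₀‖ + ‖z - z₀‖ := norm_add_le _ _
        _ ≤ ‖z₀‖ + z₀.im / 2 := by linarith
    calc ‖latPt z a‖ = ‖(a 0 : ℂ) * z + (a 1 : ℂ)‖ := rfl
      _ ≤ ‖(a 0 : ℂ) * z‖ + ‖(a 1 : ℂ)‖ := norm_add_le _ _
      _ = |(a 0 : ℝ)| * ‖z‖ + |(a 1 : ℝ)| := by
          rw [norm_mul, Complex.norm_intCast, Complex.norm_intCast]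
      _ ≤ M := by
          rw [hMdef]
          gcongr
  have hne : ∀ z ∈ U, ∀ x : Fin 2 → ℤ, x ≠ 0 → latPt z x ≠ 0 := by
    intro z hz x hx h0
    have h1 := (hball z hz).2 x hx
    rw [h0, norm_zero] at h1
    have h2 : 0 < r₀ * ‖x‖ := mul_pos hr₀ (lt_of_lt_of_le one_pos (one_le_norm_of_ne_zero hx))
    linarith
  have hmain : DifferentiableOn ℂ
      (fun z : ℂ => ∑' v : Fin 2 → ℤ, zetaTerm z (latPt z a / ℓ) v) U := by
    refine Complex.differentiableOn_tsum_of_summable_norm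
      (u := fun v : Fin 2 → ℤ => (if v = 0 then (ℓ : ℝ) / r₀ else 0) +
        M ^ 2 / (ℓ * r₀ ^ 3) * ((‖v‖ ^ 3)⁻¹ + (‖a - (ℓ : ℤ) • v‖ ^ 3)⁻¹))
      (summable_zetaTerm_bound hℓ a _ _) ?_ hUopen ?_
    · intro v z hz
      exact (differentiableAt_zetaTerm_latPt hℓ ha v (hne z hz)).differentiableWithinAt
    · intro v z hz
      exact norm_zetaTerm_latPt_le hℓ ha v hr₀ (hball z hz).2 (hMbound z hz)
  have hat : DifferentiableAt ℂ
      (fun z : ℂ => ∑' v : Fin 2 → ℤ, zetaTerm z (latPt z a / ℓ) v) z₀ :=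
    hmain.differentiableAt (hUopen.mem_nhds hz₀U)
  exact hat.differentiableWithinAt

lemma nonzeroMod_two_one_zero : NonzeroMod 2 ![1, 0] := by
  intro h
  have h1 : ((2 : ℕ) : ℤ) ∣ 1 := by simpa using h.1
  norm_num at h1

lemma nonzeroMod_two_zero_one : NonzeroMod 2 ![0, 1] := by
  intro h
  have h1 : ((2 : ℕ) : ℤ) ∣ 1 := by simpa using h.2
  norm_num at h1

/-- The quasi-period `η(1)` is a holomorphic function of `z` on the upper half plane. -/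
theorem differentiableOn_eta1 : DifferentiableOn ℂ eta1 {z : ℂ | 0 < z.im} := by
  have h := differentiableOn_wzeta_latPt (ℓ := 2) (by norm_num) nonzeroMod_two_zero_one
  have hfun : eta1 = fun z : ℂ => 2 * wzeta z (latPt z ![0, 1] / (2 : ℕ)) := by
    funext z
    simp [eta1, latPt]
  rw [hfun]
  exact h.const_mul 2

/-- The quasi-period `η(z)` is a holomorphic function of `z` on the upper half plane. -/
theorem differentiableOn_etaZ : DifferentiableOn ℂ etaZ {z : ℂ | 0 < z.im} := by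
  have h := differentiableOn_wzeta_latPt (ℓ := 2) (by norm_num) nonzeroMod_two_one_zero
  have hfun : etaZ = fun z : ℂ => 2 * wzeta z (latPt z ![1, 0] / (2 : ℕ)) := by
    funext z
    simp [etaZ, latPt]
  rw [hfun]
  exact h.const_mul 2

/-- (DS-2C) Hecke's weight-one Eisenstein function `eisOne ℓ a` is holomorphic on the upper half
plane for `a` nonzero modulo `ℓ`. -/
theorem eisOneHolomorphic : EisOneHolomorphicStatement := by
  intro ℓ hℓ a ha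
  have hℓ0 : ℓ ≠ 0 := by omega
  have h1 := differentiableOn_wzeta_latPt hℓ0 ha
  have hfun : eisOne ℓ a = fun z : ℂ =>
      wzeta z (latPt z a / ℓ) - (a 0 / ℓ) * etaZ z - (a 1 / ℓ) * eta1 z := by
    funext z
    rfl
  rw [hfun]
  exact (h1.sub (differentiableOn_etaZ.const_mul _)).sub (differentiableOn_eta1.const_mul _)

end Fermat.Agent.H30.DS
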